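import Fermat.Agent.DiagonalLocal.Local
import Fermat.Agent.ToricCubic.Boxes

/-!
# A positive proportion is everywhere locally soluble

In a dyadic box a positive proportion of the tuples congruent to `1` modulo `Q!` is pairwise
coprime, and negating one coordinate gives locally soluble forms.
-/

set_option autoImplicit false
set_option linter.style.openClassical false

noncomputable section

open scoped Classical Nat

namespace FA.DiagonalLocal

open FA.ToricCubic

/-- The pairwise coprime tuples in the class `1` modulo `Q!` of a box. -/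
def classCoprime (m Q k : ℕ) : Finset (Fin m → ℕ) :=
  (Fintype.piFinset fun _ : Fin m => classBox Q ! k).filter
    fun w => ∀ i j, i ≠ j → (w i).Coprime (w j)

theorem exists_classCoprime_bound (m Q : ℕ) (hQ : 16 * m ^ 2 < Q) :
    ∃ c : ℝ, 0 < c ∧ ∃ k₀ : ℕ, ∀ k, k₀ ≤ k →
      c * ((2 : ℝ) ^ k) ^ m ≤ (classCoprime m Q k).card := by
  obtain ⟨k₁, hk₁⟩ := eventually_badPairs_le (P := Q) (by omega)
  set M : ℝ := (Q ! : ℝ)
  refine ⟨(2 * M)⁻¹ ^ m / 2, by positivity, max k₁ Q !, fun k hk => ?_⟩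
  set N := classBox Q ! k
  have hN : (2 : ℝ) ^ k / (2 * M) ≤ N.card := by
    refine le_trans ?_ (Nat.cast_le.mpr (le_card_classBox (Nat.factorial_pos Q)))
    rw [div_le_iff₀ (by positivity)]
    have h1 : Q ! ≤ 2 ^ k := ((le_max_right _ _).trans hk).trans Nat.lt_two_pow_self.le
    have h2 : 2 ^ k ≤ 2 ^ k / Q ! * (2 * Q !) := by
      have h3 := Nat.lt_div_mul_add (Nat.factorial_pos Q) (a := 2 ^ k)
      have h4 : 1 * Q ! ≤ 2 ^ k / Q ! * Q ! :=
        Nat.mul_le_mul_right _ ((Nat.one_le_div_iff (Nat.factorial_pos Q)).mpr h1)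
      rw [one_mul] at h4
      rw [← mul_assoc, mul_comm (2 ^ k / Q !) 2, mul_assoc]
      omega
    simp only [M]
    exact_mod_cast h2
  have hN0 : 0 < (N.card : ℝ) := lt_of_lt_of_le (by positivity) hN
  set bad : Fin m × Fin m → Finset (Fin m → ℕ) := fun q =>
    (Fintype.piFinset fun _ : Fin m => N).filter fun w => ¬(w q.1).Coprime (w q.2)
  have hbad : ∀ q ∈ (Finset.univ : Finset (Fin m)).offDiag,
      ((bad q).card : ℝ) ≤ 8 / Q * (N.card : ℝ) ^ m := fun q hq => by
    refine le_of_mul_le_mul_right ?_ (mul_pos hN0 hN0)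
    simp only [bad]
    have h := card_filter_pair (fun _ : Fin m => N) (Finset.mem_offDiag.mp hq).2.2
      fun a b => ¬a.Coprime b
    simp only [Finset.prod_const, Finset.card_univ, Fintype.card_fin] at h
    refine (le_of_eq (Eq.trans (by congr!) h)).trans ?_
    calc _ ≤ 8 / (Q : ℝ) * (N.card * N.card) * (N.card : ℝ) ^ m := mul_le_mul_of_nonneg_right
          (le_trans (le_of_eq (by simp only [badPairs]; congr! 2))
            (hk₁ _ _ ((le_max_left _ _).trans hk) ((le_max_left _ _).trans hk))) (by positivity)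
      _ = _ := by ring
  have hsub : (Fintype.piFinset fun _ : Fin m => N) ⊆
      classCoprime m Q k ∪ (Finset.univ : Finset (Fin m)).offDiag.biUnion bad := fun w hw => by
    by_cases hc : ∀ i j, i ≠ j → (w i).Coprime (w j)
    · exact Finset.mem_union_left _ (Finset.mem_filter.mpr ⟨hw, hc⟩)
    · push Not at hc
      obtain ⟨i, j, hne, hnc⟩ := hc
      exact Finset.mem_union_right _ (Finset.mem_biUnion.mpr ⟨(i, j),
        Finset.mem_offDiag.mpr ⟨Finset.mem_univ _, Finset.mem_univ _, hne⟩,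
        Finset.mem_filter.mpr ⟨hw, hnc⟩⟩)
  have hcard : (N.card : ℝ) ^ m ≤ (classCoprime m Q k).card + (N.card : ℝ) ^ m / 2 := by
    have h := Nat.cast_le (α := ℝ) |>.mpr ((Finset.card_le_card hsub).trans
      ((Finset.card_union_le _ _).trans (Nat.add_le_add_left Finset.card_biUnion_le _)))
    rw [Fintype.card_piFinset, Finset.prod_const, Finset.card_univ, Fintype.card_fin] at h
    push_cast at h
    refine h.trans (add_le_add le_rfl ((Finset.sum_le_card_nsmul _ _ _ hbad).trans ?_))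
    rw [nsmul_eq_mul, ← mul_assoc, div_eq_inv_mul ((N.card : ℝ) ^ m) 2]
    refine mul_le_mul_of_nonneg_right ?_ (by positivity)
    have h1 : ((Finset.univ : Finset (Fin m)).offDiag.card : ℝ) ≤ (m : ℝ) ^ 2 := by
      rw [Finset.offDiag_card, Finset.card_univ, Fintype.card_fin, sq, ← Nat.cast_mul]
      exact Nat.cast_le.mpr (Nat.sub_le _ _)
    have h2 : 16 * (m : ℝ) ^ 2 ≤ Q := by exact_mod_cast hQ.le
    rw [mul_div_assoc', div_le_iff₀ (Nat.cast_pos.mpr (by omega))]
    linarith
  have hpow : (2 * M)⁻¹ ^ m * ((2 : ℝ) ^ k) ^ m ≤ (N.card : ℝ) ^ m := by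
    rw [← mul_pow, inv_mul_eq_div]
    exact pow_le_pow_left₀ (by positivity) hN m
  linarith

variable {m d : ℕ}

/-- The forms with nonzero coefficients of absolute value at most `B` that are soluble
everywhere locally. -/
def solubleForms (m d B : ℕ) : Finset (Fin m → ℤ) :=
  (Fintype.piFinset fun _ : Fin m => (Finset.Icc (-(B : ℤ)) B).erase 0).filter
    fun a => LocallySoluble a d

theorem mem_solubleForms {B : ℕ} {a : Fin m → ℤ} :
    a ∈ solubleForms m d B ↔ (∀ i, a i ≠ 0 ∧ |a i| ≤ B) ∧ LocallySoluble a d := by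
  simp [solubleForms, abs_le]

/-- The sign of the second coordinate. -/
def negSecond (w : Fin m → ℕ) : Fin m → ℤ := fun l => if (l : ℕ) = 1 then -(w l : ℤ) else w l

theorem negSecond_natAbs (w : Fin m → ℕ) (l : Fin m) : (negSecond w l).natAbs = w l := by
  unfold negSecond
  split_ifs <;> simp

/-- A box of forms. -/
theorem card_classCoprime_le (hm : 4 ≤ m) (hd : 0 < d) {Q k B : ℕ} (hQ : d ^ 6 + 2 * d ≤ Q)
    (hB : 2 ^ (k + 1) ≤ B) : (classCoprime m Q k).card ≤ (solubleForms m d B).card := by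
  refine Finset.card_le_card_of_injOn negSecond (fun w hw => ?_)
    fun v _ w _ h => funext fun l => by
      rw [← negSecond_natAbs v, h, negSecond_natAbs]
  obtain ⟨hw, hcop⟩ := Finset.mem_filter.mp hw
  have hbox : ∀ l, (2 ^ k ≤ w l ∧ w l < 2 ^ k + 2 ^ k) ∧ (w l : ℤ) ≡ 1 [ZMOD Q !] := fun l => by
    obtain ⟨h1, h2⟩ := Finset.mem_filter.mp (Fintype.mem_piFinset.mp hw l)
    exact ⟨Finset.mem_Ico.mp h1, Int.natCast_modEq_iff.mpr h2⟩
  refine mem_solubleForms.mpr ⟨fun l => ?_, ?_⟩
  · have := (hbox l).1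
    have := Nat.two_pow_pos k
    rw [pow_succ, mul_two] at hB
    refine ⟨Int.natAbs_ne_zero.mp (by rw [negSecond_natAbs]; omega), ?_⟩
    rw [Int.abs_eq_natAbs, negSecond_natAbs]
    exact_mod_cast (by omega : w l ≤ B)
  · have hpos : ∀ l, (0 : ℤ) < w l := fun l =>
      Nat.cast_pos.mpr ((Nat.two_pow_pos k).trans_le (hbox l).1.1)
    refine locallySoluble_of_congr hm hd hQ (i := ⟨0, by omega⟩) (j := ⟨1, by omega⟩)
      (by simp) ?_ ?_ ?_ ?_ fun r s hrs => by simpa [negSecond_natAbs] using hcop r s hrs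
    · simpa [negSecond] using (hbox _).2
    · simpa [negSecond] using (hbox _).2.neg
    · simpa [negSecond] using hpos _
    · simpa [negSecond] using hpos _

/-- **A positive proportion of the diagonal forms in at least four variables is everywhere
locally soluble.** -/
theorem exists_proportion (hm : 4 ≤ m) (hd : 0 < d) :
    ∃ c : ℝ, 0 < c ∧ ∃ B₀ : ℕ, ∀ B, B₀ ≤ B → c * (B : ℝ) ^ m ≤ (solubleForms m d B).card := by
  obtain ⟨c, hc, k₀, hk₀⟩ := exists_classCoprime_bound m (d ^ 6 + 2 * d + 16 * m ^ 2) (by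
    have : 0 < d ^ 6 := by positivity
    omega)
  refine ⟨c / 4 ^ m, by positivity, 2 ^ (k₀ + 1), fun B hB => ?_⟩
  have hB0 : B ≠ 0 := (lt_of_lt_of_le (Nat.two_pow_pos _) hB).ne'
  obtain ⟨k, hk⟩ : ∃ k, Nat.log 2 B = k + 1 := ⟨Nat.log 2 B - 1, by
    have := (Nat.le_log_iff_pow_le one_lt_two hB0).mpr hB
    omega⟩
  have hkk : k₀ ≤ k := by
    have := (Nat.le_log_iff_pow_le one_lt_two hB0).mpr hB
    omega
  have hlow : 2 ^ (k + 1) ≤ B := hk ▸ Nat.pow_log_le_self 2 hB0
  have hup : B ≤ 4 * 2 ^ k := by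
    have h := Nat.lt_pow_succ_log_self one_lt_two B
    rw [hk, Nat.succ_eq_add_one, pow_succ, pow_succ] at h
    omega
  calc c / 4 ^ m * (B : ℝ) ^ m ≤ c / 4 ^ m * (4 * (2 : ℝ) ^ k) ^ m := by
        gcongr
        exact_mod_cast hup
    _ = c * ((2 : ℝ) ^ k) ^ m := by field_simp; ring
    _ ≤ _ := (hk₀ k hkk).trans
        (Nat.cast_le.mpr (card_classCoprime_le hm hd (Nat.le_add_right _ _) hlow))

theorem card_solubleForms_le (m d B : ℕ) : (solubleForms m d B).card ≤ (2 * B) ^ m := by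
  refine (Finset.card_filter_le _ _).trans_eq ?_
  rw [Fintype.card_piFinset, Finset.prod_const, Finset.card_univ, Fintype.card_fin,
    Finset.card_erase_of_mem (by simp), Int.card_Icc]
  congr 1
  omega

end FA.DiagonalLocal
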