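import Fermat.Agent.DiagonalHypersurface.Count
import Mathlib.Analysis.SpecialFunctions.Pow.Real
import Mathlib.NumberTheory.LegendreSymbol.Complex
import Mathlib.NumberTheory.Padics.Hensel
import Mathlib.NumberTheory.Padics.RingHoms

/-!
# Zeros of diagonal forms over the reals and the `p`-adic numbers

Three unit coefficients give a nonzero zero modulo every `p > d ^ 6` by the Gauss sums, hence a
`p`-adic one by Hensel's lemma. A pair of coefficients near `1` and `-1` gives one for small `p`.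
-/

set_option autoImplicit false
set_option linter.style.openClassical false

noncomputable section

open Polynomial
open scoped Classical Nat

namespace FA.DiagonalLocal

open FA.DiagonalHypersurface FA.FermatCount

/-- The form `∑ a i x i ^ d` has a nontrivial zero over `K`. -/
def HasZero (K : Type*) [CommRing K] {m : ℕ} (a : Fin m → ℤ) (d : ℕ) : Prop :=
  ∃ x : Fin m → K, x ≠ 0 ∧ ∑ i, (a i : K) * x i ^ d = 0

/-- The form has nontrivial zeros over `ℝ` and every `ℚ_[p]`. -/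
def LocallySoluble {m : ℕ} (a : Fin m → ℤ) (d : ℕ) : Prop :=
  HasZero ℝ a d ∧ ∀ (p : ℕ) [Fact p.Prime], HasZero ℚ_[p] a d

variable {m d : ℕ}

/-- A zero of a subform. -/
theorem hasZero_of_injective {K : Type*} [CommRing K] {ι : Type*} [Fintype ι] {e : ι → Fin m}
    (he : Function.Injective e) {a : Fin m → ℤ} (hd : 0 < d) {w : ι → K} (hw : w ≠ 0)
    (h : ∑ l, (a (e l) : K) * w l ^ d = 0) : HasZero K a d := by
  refine ⟨Function.extend e w 0, fun h0 => hw (funext fun l => ?_), ?_⟩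
  · rw [← he.extend_apply w 0 l, h0, Pi.zero_apply, Pi.zero_apply]
  · rw [← h]
    symm
    refine Fintype.sum_of_injective e he _ _ (fun l hl => ?_) fun l => by rw [he.extend_apply]
    rw [Function.extend_apply' _ _ _ (fun hx => hl hx), Pi.zero_apply, zero_pow hd.ne', mul_zero]

/-- A zero of a binary subform. -/
theorem hasZero_of_pair {K : Type*} [CommRing K] {a : Fin m → ℤ} (hd : 0 < d) {i j : Fin m}
    (hij : i ≠ j) {z : K} (hz : z ≠ 0) (h : (a i : K) * z ^ d + (a j : K) = 0) :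
    HasZero K a d := by
  refine hasZero_of_injective (e := ![i, j]) ?_ hd (w := ![z, 1])
    (fun h0 => hz (congrFun h0 0)) ?_
  · intro x y hxy
    fin_cases x <;> fin_cases y <;> simp_all [eq_comm]
  · rw [Fin.sum_univ_two]
    simpa using h

theorem hasZero_real {a : Fin m → ℤ} (hd : 0 < d) {i j : Fin m} (hij : i ≠ j) (hi : 0 < a i)
    (hj : a j < 0) : HasZero ℝ a d := by
  have hq : (0 : ℝ) < -(a j : ℝ) / a i :=
    div_pos (neg_pos.mpr (Int.cast_lt_zero.mpr hj)) (Int.cast_pos.mpr hi)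
  refine hasZero_of_pair hd hij (z := (-(a j : ℝ) / a i) ^ ((d : ℝ)⁻¹))
    (Real.rpow_pos_of_pos hq _).ne' ?_
  rw [Real.rpow_inv_natCast_pow hq.le hd.ne',
    mul_div_cancel₀ _ (Int.cast_ne_zero.mpr hi.ne'), neg_add_cancel]

/-- Three nonzero coefficients in a field with more than `d ^ 6` elements. -/
theorem exists_zero_three (F : Type*) [Field F] [Fintype F] (hd : 0 < d) {a : Fin 3 → F}
    (ha : ∀ i, a i ≠ 0) (hq : d ^ 6 < Fintype.card F) :
    ∃ x : Fin 3 → F, x ≠ 0 ∧ ∑ i, a i * x i ^ d = 0 := by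
  by_contra hno
  push Not at hno
  have hone : diagonalZeros a d = 1 := by
    rw [diagonalZeros, Nat.card_eq_one_iff_unique]
    exact ⟨⟨fun x y => Subtype.ext
      ((not_imp_not.mp (hno x.1) x.2).trans (not_imp_not.mp (hno y.1) y.2).symm)⟩,
      ⟨⟨0, by simp [hd.ne']⟩⟩⟩
  set ψ := AddChar.FiniteField.primitiveChar_to_Complex F
  have hψ : ψ.IsPrimitive := AddChar.FiniteField.primitiveChar_to_Complex_isPrimitive F
  have h := card_diagonalZeros hd ha hψ
  rw [hone, Nat.cast_one, one_mul] at h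
  set q : ℝ := (Fintype.card F : ℝ) with hqdef
  set S := ∑ χ ∈ charTuples F d 3, ∏ i, ((χ i)⁻¹ (a i) * gaussSum (χ i) ψ)
  have hq1 : 1 < q := Nat.one_lt_cast.mpr Fintype.one_lt_card
  have hS : ‖S‖ ≤ (d : ℝ) ^ 3 * √q ^ 3 := by
    refine (norm_sum_le _ _).trans ((Finset.sum_le_card_nsmul _ _ (√q ^ 3) fun χ hχ => ?_).trans ?_)
    · obtain ⟨h, -⟩ := mem_charTuples.mp hχ
      rw [norm_prod]
      refine (Finset.prod_le_prod (fun i _ => norm_nonneg _) fun i _ => ?_).trans_eq
        (by rw [Finset.prod_const, Finset.card_univ, Fintype.card_fin])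
      have h2 := gaussSum_mul_gaussSum_eq_card (h i).1 hψ
      rw [← star_gaussSum_eq, ← starRingEnd_apply, Complex.mul_conj'] at h2
      have h3 : ‖(χ i)⁻¹ (a i)‖ = 1 := by
        refine Complex.norm_eq_one_of_pow_eq_one (n := Fintype.card Fˣ) ?_ Fintype.card_ne_zero
        rw [← Units.val_mk0 (ha i), ← map_pow, ← Units.val_pow_eq_pow_val, pow_card_eq_one,
          Units.val_one, MulChar.map_one]
      rw [norm_mul, h3, one_mul, ← Real.sqrt_sq (norm_nonneg (gaussSum (χ i) ψ))]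
      exact Real.sqrt_le_sqrt (le_of_eq (by exact_mod_cast h2))
    · rw [nsmul_eq_mul]
      refine mul_le_mul_of_nonneg_right ?_ (by positivity)
      have hc : (charTuples F d 3).card ≤ d ^ 3 := by
        refine (Finset.card_filter_le _ _).trans ?_
        rw [Fintype.card_piFinset, Finset.prod_const, Finset.card_univ, Fintype.card_fin]
        refine Nat.pow_le_pow_left ((Finset.card_erase_le).trans ?_) 3
        rw [card_killed]
        exact Nat.le_of_dvd hd (Nat.gcd_dvd_left _ _)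
      exact_mod_cast hc
  have hfac : ((q : ℂ) - 1) * (-S) = ((q : ℂ) - 1) * ((q : ℂ) * (q + 1)) := by
    rw [hqdef, Complex.ofReal_natCast]
    linear_combination h
  have hval := congrArg (‖·‖) (mul_left_cancel₀
    (sub_ne_zero.mpr (Complex.ofReal_ne_one.mpr hq1.ne')) hfac)
  simp only [norm_neg, norm_mul, Complex.norm_real, ← Complex.ofReal_one,
    ← Complex.ofReal_add, Real.norm_eq_abs] at hval
  rw [abs_of_pos (by linarith : (0 : ℝ) < q), abs_of_pos (by linarith : (0 : ℝ) < q + 1)] at hval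
  have hs : √q * √q = q := Real.mul_self_sqrt (by linarith)
  have hd3 : (d : ℝ) ^ 3 < √q := by
    refine Real.lt_sqrt_of_sq_lt ?_
    rw [← pow_mul, hqdef]
    exact_mod_cast hq
  have : (d : ℝ) ^ 3 * √q ^ 3 ≤ √q * √q ^ 3 :=
    mul_le_mul_of_nonneg_right hd3.le (by positivity)
  nlinarith [hS]

variable {p : ℕ} [hp : Fact p.Prime]

/-- Hensel's lemma for `A t ^ d + B`. -/
theorem exists_root_pow (A B t : ℤ) (h : ‖((A * t ^ d + B : ℤ) : ℤ_[p])‖ <
      ‖((d * A * t ^ (d - 1) : ℤ) : ℤ_[p])‖ ^ 2) :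
    ∃ z : ℤ_[p], (A : ℤ_[p]) * z ^ d + (B : ℤ_[p]) = 0 ∧
      ‖z - (t : ℤ_[p])‖ < ‖((d * A * t ^ (d - 1) : ℤ) : ℤ_[p])‖ := by
  set F : ℤ[X] := C A * X ^ d + C B
  have e1 : ∀ z : ℤ_[p], F.aeval z = (A : ℤ_[p]) * z ^ d + (B : ℤ_[p]) := fun z => by simp [F]
  have e2 : F.derivative.aeval (t : ℤ_[p]) = ((d * A * t ^ (d - 1) : ℤ) : ℤ_[p]) := by
    simp [F, Polynomial.derivative_X_pow]; ring
  obtain ⟨z, hz, hzt, -⟩ := hensels_lemma (F := F) (a := (t : ℤ_[p]))
    (by rw [e1, e2]; push_cast at h ⊢; exact h)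
  exact ⟨z, by rw [← e1, hz], e2 ▸ hzt⟩

theorem norm_intCast_eq_one {k : ℤ} (h : ¬ (p : ℤ) ∣ k) : ‖(k : ℤ_[p])‖ = 1 :=
  le_antisymm (PadicInt.norm_le_one _)
    (not_lt.mp fun hlt => h (PadicInt.norm_intCast_lt_one_iff.mp hlt))

/-- A pair of coefficients with small sum. -/
theorem hasZero_padic_of_pair {a : Fin m → ℤ} (hd : 0 < d) {i j : Fin m} (hij : i ≠ j)
    (hi : ¬ (p : ℤ) ∣ a i) (hdvd : ((p * d ^ 2 : ℕ) : ℤ) ∣ a i + a j) :
    HasZero ℚ_[p] a d := by
  obtain ⟨c, hc⟩ := hdvd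
  have hder : ‖((d * a i * 1 ^ (d - 1) : ℤ) : ℤ_[p])‖ = ‖(d : ℤ_[p])‖ := by
    rw [one_pow, mul_one, Int.cast_mul, norm_mul, norm_intCast_eq_one hi, mul_one,
      Int.cast_natCast]
  obtain ⟨z, hz, hz1⟩ := exists_root_pow (d := d) (a i) (a j) 1 (by
    rw [hder, one_pow, mul_one, hc]
    push_cast
    rw [norm_mul, norm_mul, norm_pow, PadicInt.norm_p]
    have hd0 : 0 < ‖(d : ℤ_[p])‖ := norm_pos_iff.mpr (Nat.cast_ne_zero.mpr hd.ne')
    calc (p : ℝ)⁻¹ * ‖(d : ℤ_[p])‖ ^ 2 * ‖(c : ℤ_[p])‖ ≤ (p : ℝ)⁻¹ * ‖(d : ℤ_[p])‖ ^ 2 * 1 :=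
          mul_le_mul_of_nonneg_left (PadicInt.norm_le_one _) (by positivity)
      _ < 1 * ‖(d : ℤ_[p])‖ ^ 2 * 1 := by
          gcongr
          exact inv_lt_one_of_one_lt₀ (Nat.one_lt_cast.mpr hp.out.one_lt)
      _ = _ := by ring)
  refine hasZero_of_pair hd hij (z := (z : ℚ_[p])) (fun h0 => ?_) ?_
  · rw [hder, PadicInt.coe_eq_zero.mp h0, Int.cast_one, zero_sub, norm_neg, norm_one] at hz1
    exact hz1.not_ge (PadicInt.norm_le_one _)
  · have := congrArg ((↑) : ℤ_[p] → ℚ_[p]) hz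
    push_cast at this
    exact this

/-- Three unit coefficients and a large prime. -/
theorem hasZero_padic_of_three {a : Fin m → ℤ} (hd : 0 < d) (hpd : d ^ 6 < p) {e : Fin 3 → Fin m}
    (he : Function.Injective e) (ha : ∀ l, ¬ (p : ℤ) ∣ a (e l)) : HasZero ℚ_[p] a d := by
  obtain ⟨x, hx0, hx⟩ := exists_zero_three (ZMod p) hd (a := fun l => (a (e l) : ZMod p))
    (fun l h => ha l ((ZMod.intCast_zmod_eq_zero_iff_dvd _ p).mp h)) (by rwa [ZMod.card])
  obtain ⟨l, hl⟩ := Function.ne_iff.mp hx0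
  set t : Fin 3 → ℤ := fun r => ((x r).val : ℤ)
  have ht : ∀ r, (t r : ZMod p) = x r := fun r => by simp [t]
  set B := ∑ r ∈ Finset.univ.erase l, a (e r) * t r ^ d
  have hdp : ¬ (p : ℤ) ∣ (d : ℤ) := fun h => by
    have h1 : d ≤ d ^ 6 := Nat.le_self_pow (by norm_num) d
    have h2 := Nat.le_of_dvd hd (Int.natCast_dvd_natCast.mp h)
    omega
  have hder : ‖((d * a (e l) * t l ^ (d - 1) : ℤ) : ℤ_[p])‖ = 1 := norm_intCast_eq_one fun h => by
    rcases (Nat.prime_iff_prime_int.mp hp.out).dvd_mul.mp h with h | h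
    · rcases (Nat.prime_iff_prime_int.mp hp.out).dvd_mul.mp h with h | h
      exacts [hdp h, ha l h]
    · have := (ZMod.intCast_zmod_eq_zero_iff_dvd _ p).mpr
        ((Nat.prime_iff_prime_int.mp hp.out).dvd_of_dvd_pow h)
      exact hl ((ht l).symm.trans this)
  obtain ⟨z, hz, hzt⟩ := exists_root_pow (d := d) (a (e l)) B (t l) (by
    rw [hder, one_pow, PadicInt.norm_intCast_lt_one_iff, ← ZMod.intCast_zmod_eq_zero_iff_dvd]
    rw [Finset.add_sum_erase Finset.univ (fun r => a (e r) * t r ^ d) (Finset.mem_univ l)]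
    push_cast
    simpa only [ht] using hx)
  refine hasZero_of_injective he hd
    (w := Function.update (fun r => (t r : ℚ_[p])) l (z : ℚ_[p])) (fun h0 => ?_) ?_
  · have h1 : (z : ℚ_[p]) = 0 := by simpa using congrFun h0 l
    rw [hder, PadicInt.coe_eq_zero.mp h1, zero_sub, norm_neg,
      PadicInt.norm_intCast_lt_one_iff] at hzt
    exact hl ((ht l).symm.trans ((ZMod.intCast_zmod_eq_zero_iff_dvd _ p).mpr hzt))
  · rw [← Finset.add_sum_erase _ _ (Finset.mem_univ l), Function.update_self,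
      Finset.sum_congr rfl fun r hr => by
        rw [Function.update_of_ne (Finset.ne_of_mem_erase hr)]]
    have := congrArg ((↑) : ℤ_[p] → ℚ_[p]) hz
    push_cast [B] at this
    simpa using this

omit hp

/-- Pairwise coprime coefficients, two of them `≡ ±1` modulo a large factorial, of opposite
sign. -/
theorem locallySoluble_of_congr (hm : 4 ≤ m) (hd : 0 < d) {Q : ℕ} (hQ : d ^ 6 + 2 * d ≤ Q)
    {a : Fin m → ℤ} {i j : Fin m} (hij : i ≠ j) (hi : a i ≡ 1 [ZMOD Q !])
    (hj : a j ≡ -1 [ZMOD Q !]) (hpos : 0 < a i) (hneg : a j < 0)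
    (hcop : ∀ r s, r ≠ s → (a r).natAbs.Coprime (a s).natAbs) : LocallySoluble a d := by
  refine ⟨hasZero_real hd hij hpos hneg, fun p hp => ?_⟩
  rcases le_or_gt p (d ^ 6) with hle | hlt
  · have hdvd : p * d ^ 2 ∣ Q ! := by
      refine (dvd_trans ?_ (Nat.factorial_dvd_factorial (show p + 2 * d ≤ Q by omega)))
      refine dvd_trans (mul_dvd_mul (Nat.dvd_factorial hp.out.pos le_rfl) ?_)
        (Nat.factorial_mul_factorial_dvd_factorial_add p (2 * d))
      rw [two_mul, sq]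
      exact dvd_trans (mul_dvd_mul (Nat.dvd_factorial hd le_rfl) (Nat.dvd_factorial hd le_rfl))
        (Nat.factorial_mul_factorial_dvd_factorial_add d d)
    have hp1 : (p : ℤ) ∣ Q ! := Int.natCast_dvd_natCast.mpr ((dvd_mul_right _ _).trans hdvd)
    refine hasZero_padic_of_pair hd hij (fun h => ?_) ?_
    · exact (Nat.prime_iff_prime_int.mp hp.out).not_dvd_one
        ((hi.of_dvd hp1).dvd_iff.mp h)
    · refine (Int.natCast_dvd_natCast.mpr hdvd).trans (Int.modEq_zero_iff_dvd.mp ?_)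
      simpa using hi.add hj
  · have hcard : 2 < (Finset.univ.filter fun l => ¬ (p : ℤ) ∣ a l).card := by
      have h1 : (Finset.univ.filter fun l => (p : ℤ) ∣ a l).card ≤ 1 :=
        Finset.card_le_one.mpr fun r hr s hs => by
          by_contra hne
          exact (Nat.Prime.not_coprime_iff_dvd.mpr ⟨p, hp.out,
            Int.natCast_dvd.mp (Finset.mem_filter.mp hr).2,
            Int.natCast_dvd.mp (Finset.mem_filter.mp hs).2⟩) (hcop r s hne)
      have h2 := Finset.card_filter_add_card_filter_not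
        (s := (Finset.univ : Finset (Fin m))) (fun l => (p : ℤ) ∣ a l)
      rw [Finset.card_univ, Fintype.card_fin] at h2
      omega
    obtain ⟨r, hr, s, hs, u, hu, hrs, hru, hsu⟩ := Finset.two_lt_card.mp hcard
    simp only [Finset.mem_filter, Finset.mem_univ, true_and] at hr hs hu
    refine hasZero_padic_of_three hd hlt (e := ![r, s, u]) ?_ ?_
    · intro x y hxy
      fin_cases x <;> fin_cases y <;> simp_all [eq_comm]
    · intro x
      fin_cases x <;> assumption

end FA.DiagonalLocal
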